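import Fermat.Agent.FF2.R0.Model

/-!
# MOONSHOT S19, block (R0): products

`galFun K Ω V ⊗[K] galFun K Ω V' ≃ₐ[K] galFun K Ω (V × V')`, `f ⊗ g ↦ ((v, w) ↦ f v * g w)`.
-/

set_option autoImplicit false
set_option linter.unusedSectionVars false

namespace Fermat.Agent.FF2.R0

open TensorProduct

variable {K Ω : Type*} [Field K] [Field Ω] [Algebra K Ω]
  {V V' : Type*} [MulAction (Ω ≃ₐ[K] Ω) V] [MulAction (Ω ≃ₐ[K] Ω) V']

instance IsContAction.prod [h : IsContAction K Ω V] [h' : IsContAction K Ω V'] :
    IsContAction K Ω (V × V') := by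
  constructor
  rintro ⟨v, w⟩
  obtain ⟨L, hLfin, hL⟩ := h.exists_fixing v
  obtain ⟨L', hL'fin, hL'⟩ := h'.exists_fixing w
  refine ⟨L ⊔ L', inferInstance, fun σ hσ => ?_⟩
  have h1 : σ ∈ L.fixingSubgroup := IntermediateField.fixingSubgroup_le le_sup_left hσ
  have h2 : σ ∈ L'.fixingSubgroup := IntermediateField.fixingSubgroup_le le_sup_right hσ
  change (σ • v, σ • w) = (v, w)
  rw [hL σ h1, hL' σ h2]

/-- Pull back along the first projection. -/
def galFunFst (K Ω V V' : Type*) [Field K] [Field Ω] [Algebra K Ω] [MulAction (Ω ≃ₐ[K] Ω) V]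
    [MulAction (Ω ≃ₐ[K] Ω) V'] : galFun K Ω V →ₐ[K] galFun K Ω (V × V') where
  toFun f := ⟨fun p => (f : V → Ω) p.1, fun σ p => f.2 σ p.1⟩
  map_one' := rfl
  map_mul' _ _ := rfl
  map_zero' := rfl
  map_add' _ _ := rfl
  commutes' _ := rfl

/-- Pull back along the second projection. -/
def galFunSnd (K Ω V V' : Type*) [Field K] [Field Ω] [Algebra K Ω] [MulAction (Ω ≃ₐ[K] Ω) V]
    [MulAction (Ω ≃ₐ[K] Ω) V'] : galFun K Ω V' →ₐ[K] galFun K Ω (V × V') where
  toFun f := ⟨fun p => (f : V' → Ω) p.2, fun σ p => f.2 σ p.2⟩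
  map_one' := rfl
  map_mul' _ _ := rfl
  map_zero' := rfl
  map_add' _ _ := rfl
  commutes' _ := rfl

/-- The product map `f ⊗ g ↦ ((v, w) ↦ f v * g w)`. -/
noncomputable def galFunProd (K Ω V V' : Type*) [Field K] [Field Ω] [Algebra K Ω]
    [MulAction (Ω ≃ₐ[K] Ω) V] [MulAction (Ω ≃ₐ[K] Ω) V'] :
    galFun K Ω V ⊗[K] galFun K Ω V' →ₐ[K] galFun K Ω (V × V') :=
  Algebra.TensorProduct.productMap (galFunFst K Ω V V') (galFunSnd K Ω V V')

@[simp] theorem galFunProd_tmul (f : galFun K Ω V) (g : galFun K Ω V') (p : V × V') :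
    ((galFunProd K Ω V V' (f ⊗ₜ g) : galFun K Ω (V × V')) : V × V' → Ω) p =
      (f : V → Ω) p.1 * (g : V' → Ω) p.2 := by
  rw [galFunProd, Algebra.TensorProduct.productMap_apply_tmul]
  rfl

variable [IsGalois K Ω] [Finite V] [Finite V']

theorem galFunProd_injective : Function.Injective (galFunProd K Ω V V') := by
  classical
  set β := Module.finBasis K (galFun K Ω V) with hβ
  set β' := Module.finBasis K (galFun K Ω V') with hβ'
  have hli : LinearIndependent Ω (fun i => ((β i : galFun K Ω V) : V → Ω)) :=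
    galFun_linearIndependent β β.linearIndependent
  have hli' : LinearIndependent Ω (fun i => ((β' i : galFun K Ω V') : V' → Ω)) :=
    galFun_linearIndependent β' β'.linearIndependent
  set B := β.tensorProduct β' with hB
  rw [injective_iff_map_eq_zero]
  intro x hx
  -- coordinates of `x`
  have hxsum : x = ∑ ij, B.repr x ij • B ij := (B.sum_repr x).symm
  have h0 : ∀ p : V × V', ∑ ij : _ × _, algebraMap K Ω (B.repr x ij) *
      (((β ij.1 : galFun K Ω V) : V → Ω) p.1 * ((β' ij.2 : galFun K Ω V') : V' → Ω) p.2) = 0 := by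
    intro p
    have h1 : ((galFunProd K Ω V V' x : galFun K Ω (V × V')) : V × V' → Ω) p = 0 := by
      rw [hx]; rfl
    conv_lhs at h1 => rw [hxsum]
    rw [map_sum] at h1
    rw [← h1]
    have : ((∑ ij, (galFunProd K Ω V V') (B.repr x ij • B ij) : galFun K Ω (V × V')) :
        V × V' → Ω) p = ∑ ij, (((galFunProd K Ω V V') (B.repr x ij • B ij) :
          galFun K Ω (V × V')) : V × V' → Ω) p := by
      rw [AddSubmonoidClass.coe_finset_sum, Finset.sum_apply]
    rw [this]
    refine Finset.sum_congr rfl fun ij _ => ?_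
    rw [map_smul, hB, Module.Basis.tensorProduct_apply]
    have : (((B.repr x ij) • (galFunProd K Ω V V') (β ij.1 ⊗ₜ[K] β' ij.2) :
        galFun K Ω (V × V')) : V × V' → Ω) p =
        algebraMap K Ω (B.repr x ij) *
          (((galFunProd K Ω V V') (β ij.1 ⊗ₜ[K] β' ij.2) : galFun K Ω (V × V')) :
            V × V' → Ω) p := by
      simp [Algebra.smul_def]
    rw [hB] at this
    rw [this, galFunProd_tmul]
  -- all coordinates vanish
  have hc : ∀ ij, B.repr x ij = 0 := by
    rintro ⟨i, j⟩
    -- fix `w`, use independence over `Ω` in `v`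
    have h1 : ∀ w : V', ∀ i, ∑ j, algebraMap K Ω (B.repr x (i, j)) *
        ((β' j : galFun K Ω V') : V' → Ω) w = 0 := by
      intro w
      have h2 : ∑ i, (∑ j, algebraMap K Ω (B.repr x (i, j)) *
          ((β' j : galFun K Ω V') : V' → Ω) w) • ((β i : galFun K Ω V) : V → Ω) = 0 := by
        funext v
        have := h0 (v, w)
        rw [Fintype.sum_prod_type] at this
        simp only [Finset.sum_apply, Pi.smul_apply, smul_eq_mul, Pi.zero_apply]
        rw [← this]
        refine Finset.sum_congr rfl fun i _ => ?_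
        rw [Finset.sum_mul]
        refine Finset.sum_congr rfl fun j _ => ?_
        ring
      exact fun i => Fintype.linearIndependent_iff.mp hli _ h2 i
    have h3 : ∑ j, algebraMap K Ω (B.repr x (i, j)) • ((β' j : galFun K Ω V') : V' → Ω) = 0 := by
      funext w
      have := h1 w i
      simp only [Finset.sum_apply, Pi.smul_apply, smul_eq_mul, Pi.zero_apply]
      exact this
    have h4 := Fintype.linearIndependent_iff.mp hli' _ h3 j
    exact (map_eq_zero_iff _ (algebraMap K Ω).injective).mp h4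
  rw [hxsum]
  exact Finset.sum_eq_zero fun ij _ => by rw [hc ij, zero_smul]

/-- **(R0.3)** The product map is an isomorphism. -/
theorem galFunProd_bijective [IsContAction K Ω V] [IsContAction K Ω V'] :
    Function.Bijective (galFunProd K Ω V V') := by
  refine ⟨galFunProd_injective, ?_⟩
  have hdim : Module.finrank K (galFun K Ω V ⊗[K] galFun K Ω V') =
      Module.finrank K (galFun K Ω (V × V')) := by
    rw [Module.finrank_tensorProduct, finrank_galFun, finrank_galFun,
      finrank_galFun, Nat.card_prod]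
  have hinj : Function.Injective (galFunProd K Ω V V').toLinearMap := galFunProd_injective
  have h1 : Module.finrank K (LinearMap.range (galFunProd K Ω V V').toLinearMap) =
      Module.finrank K (galFun K Ω (V × V')) := by
    rw [LinearMap.finrank_range_of_inj hinj, hdim]
  have h2 : LinearMap.range (galFunProd K Ω V V').toLinearMap = ⊤ :=
    Submodule.eq_top_of_finrank_eq h1
  exact LinearMap.range_eq_top.mp h2

/-- The product isomorphism. -/
noncomputable def galFunProdEquiv (K Ω V V' : Type*) [Field K] [Field Ω] [Algebra K Ω]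
    [MulAction (Ω ≃ₐ[K] Ω) V] [MulAction (Ω ≃ₐ[K] Ω) V'] [IsGalois K Ω] [Finite V] [Finite V']
    [IsContAction K Ω V] [IsContAction K Ω V'] :
    galFun K Ω V ⊗[K] galFun K Ω V' ≃ₐ[K] galFun K Ω (V × V') :=
  AlgEquiv.ofBijective (galFunProd K Ω V V') galFunProd_bijective

@[simp] theorem galFunProdEquiv_apply [IsContAction K Ω V] [IsContAction K Ω V']
    (t : galFun K Ω V ⊗[K] galFun K Ω V') :
    galFunProdEquiv K Ω V V' t = galFunProd K Ω V V' t := rfl

end Fermat.Agent.FF2.R0
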