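import Mathlib
import Fermat.Agent.TW.Hopf.PointModel

/-!
# MOONSHOT S19, block (R0): the algebra of Galois-equivariant functions on a finite Galois set

`Ω / K` a Galois extension (possibly infinite), `G = Gal(Ω/K)` acting on a set `V`.
`galFun K Ω V` is the `K`-algebra of the functions `f : V → Ω` with `f (σ • v) = σ (f v)`.

* `galFun_exists_apply`: an equivariant function with a prescribed value at a point;
* `galFun_separates`: if the action is continuous (every stabiliser contains the fixing subgroup of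
  a finite subextension), equivariant functions separate the points;
* `galFunModel`: `galFun K Ω V` is a point model on `V` in the sense of `TW/Hopf/PointModel`.
-/

set_option autoImplicit false
set_option linter.unusedSectionVars false

namespace Fermat.Agent.FF2.R0

open Fermat.Agent.TW.Hopf.Closure

variable (K Ω : Type*) [Field K] [Field Ω] [Algebra K Ω] (V : Type*) [MulAction (Ω ≃ₐ[K] Ω) V]

/-- The `K`-algebra of Galois-equivariant functions `V → Ω`. -/
def galFun : Subalgebra K (V → Ω) where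
  carrier := {f | ∀ (σ : Ω ≃ₐ[K] Ω) (v : V), f (σ • v) = σ (f v)}
  mul_mem' := by
    intro f g hf hg σ v
    simp only [Pi.mul_apply, map_mul, hf σ v, hg σ v]
  add_mem' := by
    intro f g hf hg σ v
    simp only [Pi.add_apply, map_add, hf σ v, hg σ v]
  algebraMap_mem' := by
    intro r σ v
    simp [Pi.algebraMap_apply]

variable {K Ω V}

theorem mem_galFun {f : V → Ω} :
    f ∈ galFun K Ω V ↔ ∀ (σ : Ω ≃ₐ[K] Ω) (v : V), f (σ • v) = σ (f v) := Iff.rfl

theorem galFun_apply_smul (f : galFun K Ω V) (σ : Ω ≃ₐ[K] Ω) (v : V) :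
    (f : V → Ω) (σ • v) = σ ((f : V → Ω) v) := f.2 σ v

/-- The continuity hypothesis on the action: every stabiliser contains the fixing subgroup of a
finite subextension. -/
class IsContAction (K Ω V : Type*) [Field K] [Field Ω] [Algebra K Ω]
    [MulAction (Ω ≃ₐ[K] Ω) V] : Prop where
  exists_fixing : ∀ v : V, ∃ L : IntermediateField K Ω, FiniteDimensional K L ∧
    ∀ σ ∈ L.fixingSubgroup, σ • v = v

/-- An equivariant function with a prescribed value `c` at `v` (`c` fixed by the stabiliser of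
`v`), vanishing outside the orbit of `v`. -/
theorem galFun_exists_apply (v : V) (c : Ω)
    (hc : ∀ σ : Ω ≃ₐ[K] Ω, σ • v = v → σ c = c) :
    ∃ f ∈ galFun K Ω V, f v = c ∧ ∀ w, (∀ σ : Ω ≃ₐ[K] Ω, σ • v ≠ w) → f w = 0 := by
  classical
  have hwd : ∀ σ τ : Ω ≃ₐ[K] Ω, σ • v = τ • v → σ c = τ c := by
    intro σ τ h
    have h1 : (τ⁻¹ * σ) • v = v := by
      rw [mul_smul, h, inv_smul_smul]
    have h2 := hc _ h1
    have h3 : τ ((τ⁻¹ * σ) c) = σ c := by
      rw [AlgEquiv.mul_apply]
      exact AlgEquiv.apply_symm_apply τ (σ c)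
    rw [← h3, h2]
  refine ⟨fun w => if h : ∃ σ : Ω ≃ₐ[K] Ω, σ • v = w then h.choose c else 0, ?_, ?_, ?_⟩
  · intro τ w
    by_cases h : ∃ σ : Ω ≃ₐ[K] Ω, σ • v = w
    · have h' : ∃ σ : Ω ≃ₐ[K] Ω, σ • v = τ • w := by
        obtain ⟨σ, rfl⟩ := h
        exact ⟨τ * σ, mul_smul τ σ v⟩
      simp only [dif_pos h, dif_pos h']
      have e1 : h'.choose • v = (τ * h.choose) • v := by
        rw [h'.choose_spec, mul_smul, h.choose_spec]
      rw [hwd _ _ e1, AlgEquiv.mul_apply]
    · have h' : ¬ ∃ σ : Ω ≃ₐ[K] Ω, σ • v = τ • w := by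
        rintro ⟨σ, hσ⟩
        apply h
        refine ⟨τ⁻¹ * σ, ?_⟩
        rw [mul_smul, hσ, inv_smul_smul]
      simp only [dif_neg h, dif_neg h', map_zero]
  · have h : ∃ σ : Ω ≃ₐ[K] Ω, σ • v = v := ⟨1, one_smul _ v⟩
    simp only [dif_pos h]
    have := hwd h.choose 1 (by rw [h.choose_spec, one_smul])
    simpa using this
  · intro w hw
    have h : ¬ ∃ σ : Ω ≃ₐ[K] Ω, σ • v = w := fun ⟨σ, hσ⟩ => hw σ hσ
    simp only [dif_neg h]

/-- Equivariant functions separate the points of a continuous Galois set. -/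
theorem galFun_separates [IsGalois K Ω] [hcont : IsContAction K Ω V] (v w : V) (hvw : v ≠ w) :
    ∃ f ∈ galFun K Ω V, f v ≠ f w := by
  classical
  by_cases horb : ∃ σ : Ω ≃ₐ[K] Ω, σ • v = w
  · obtain ⟨σ, rfl⟩ := horb
    -- the stabiliser of `v` is a closed subgroup
    obtain ⟨L, hLfin, hL⟩ := hcont.exists_fixing v
    let S : Subgroup (Ω ≃ₐ[K] Ω) := MulAction.stabilizer (Ω ≃ₐ[K] Ω) v
    have hLS : L.fixingSubgroup ≤ S := fun τ hτ => hL τ hτ
    have hSopen : IsOpen (S : Set (Ω ≃ₐ[K] Ω)) :=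
      Subgroup.isOpen_mono hLS L.fixingSubgroup_isOpen
    have hSclosed : IsClosed (S : Set (Ω ≃ₐ[K] Ω)) :=
      OpenSubgroup.isClosed ⟨S, hSopen⟩
    let Sc : ClosedSubgroup (Ω ≃ₐ[K] Ω) := ⟨S, hSclosed⟩
    have hfix : (IntermediateField.fixedField S).fixingSubgroup = S :=
      InfiniteGalois.fixingSubgroup_fixedField Sc
    have hσ : σ ∉ S := by
      intro h
      exact hvw (MulAction.mem_stabilizer_iff.mp h).symm
    rw [← hfix] at hσ
    -- an element of the fixed field moved by `σ`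
    have : ∃ c ∈ IntermediateField.fixedField S, σ c ≠ c := by
      by_contra hno
      push_neg at hno
      apply hσ
      rw [IntermediateField.mem_fixingSubgroup_iff]
      exact fun x hx => hno x hx
    obtain ⟨c, hcS, hcσ⟩ := this
    obtain ⟨f, hf, hfv, -⟩ := galFun_exists_apply (K := K) v c (fun τ hτ => by
      have : τ ∈ S := MulAction.mem_stabilizer_iff.mpr hτ
      exact hcS ⟨τ, this⟩)
    refine ⟨f, hf, ?_⟩
    rw [hf σ v, hfv]
    exact fun h => hcσ h.symm
  · push_neg at horb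
    obtain ⟨f, hf, hfv, hf0⟩ := galFun_exists_apply (K := K) v (1 : Ω) (fun τ _ => map_one τ)
    refine ⟨f, hf, ?_⟩
    rw [hfv, hf0 w horb]
    exact one_ne_zero

end Fermat.Agent.FF2.R0
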