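import Fermat.Agent.FF2.R0.GalFun

/-!
# MOONSHOT S19, block (R0): descent for `galFun`

`galFun K Ω V` is a point model on `V`; for a finite continuous Galois set `V`:

* `galFun_span_eq_top`: the `Ω`-span of `galFun K Ω V` in `V → Ω` is everything;
* `galFun_linearIndependent`: `K`-linearly independent families of `galFun` stay independent
  over `Ω`;
* `finrank_galFun`: `dim_K galFun K Ω V = |V|`;
* `galFun_exists_eq_eval` (char. 0): every `K`-algebra map `galFun K Ω V → Ω` is the evaluation
  at a point of `V`.
-/

set_option autoImplicit false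
set_option linter.unusedSectionVars false

namespace Fermat.Agent.FF2.R0

open Fermat.Agent.TW.Hopf.Closure Fermat.Agent.TW.Hopf.Descent

variable {K Ω : Type*} [Field K] [Field Ω] [Algebra K Ω] {V : Type*} [MulAction (Ω ≃ₐ[K] Ω) V]

/-- The family of all `K`-automorphisms of `Ω`, as algebra endomorphisms. -/
def galPhi (K Ω : Type*) [Field K] [Field Ω] [Algebra K Ω] :
    (Ω ≃ₐ[K] Ω) → (Ω →ₐ[K] Ω) := fun σ => (σ : Ω →ₐ[K] Ω)

/-- `galFun K Ω V` as a point model on `V`. -/
def galFunModel (K Ω V : Type*) [Field K] [Field Ω] [Algebra K Ω] [MulAction (Ω ≃ₐ[K] Ω) V] :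
    PointModel (galPhi K Ω) (galFun K Ω V) V where
  ev := (galFun K Ω V).val
  ev_injective := Subtype.val_injective
  act σ v := σ • v
  act_surjective σ := MulAction.surjective σ
  ev_act σ m x := m.2 σ x

theorem fixedIsFrac_galPhi [IsGalois K Ω] : FixedIsFrac (Set.range (galPhi K Ω)) := by
  intro z hz
  have h1 : z ∈ Set.range (algebraMap K Ω) := by
    rw [InfiniteGalois.mem_range_algebraMap_iff_fixed]
    intro σ
    exact hz _ ⟨σ, rfl⟩
  obtain ⟨a, rfl⟩ := h1
  exact ⟨a, 1, one_ne_zero, by rw [map_one, one_mul]⟩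

variable [IsGalois K Ω]

/-- Descent: `K`-independent equivariant functions are `Ω`-independent. -/
theorem galFun_linearIndependent {ι : Type*} (b : ι → galFun K Ω V)
    (hb : LinearIndependent K b) : LinearIndependent Ω (fun i => ((b i : galFun K Ω V) : V → Ω)) :=
  (galFunModel K Ω V).linearIndependent fixedIsFrac_galPhi b hb

variable [Finite V]

theorem galFun_span_eq_top [hcont : IsContAction K Ω V] :
    Submodule.span Ω (Set.range ((galFun K Ω V).val : galFun K Ω V → V → Ω)) = ⊤ :=
  (galFunModel K Ω V).span_eq_top (fun x x' hxx' => by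
    obtain ⟨f, hf, hne⟩ := galFun_separates (K := K) (Ω := Ω) x x' hxx'
    exact ⟨⟨f, hf⟩, hne⟩)

/-- Every `K`-algebra map `galFun K Ω V → Ω` is the evaluation at a point (char. 0). -/
theorem galFun_exists_eq_eval [CharZero Ω] (z : galFun K Ω V →ₐ[K] Ω) :
    ∃ v : V, ∀ f : galFun K Ω V, z f = (f : V → Ω) v :=
  (galFunModel K Ω V).exists_eq_eval fixedIsFrac_galPhi z

instance : Module.Finite K (galFun K Ω V) := by
  classical
  haveI : Fintype V := Fintype.ofFinite V
  -- a `K`-independent family is `Ω`-independent in `V → Ω`, so has at most `|V|` elements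
  have h : ∀ (s : Finset (galFun K Ω V)),
      LinearIndependent K (fun x : s => (x : galFun K Ω V)) → s.card ≤ Fintype.card V := by
    intro s hs
    have h1 := galFun_linearIndependent (K := K) (Ω := Ω) (V := V) (fun x : s => (x : galFun K Ω V)) hs
    have h2 := h1.fintype_card_le_finrank
    simpa using h2
  have hrank : Module.rank K (galFun K Ω V) < Cardinal.aleph0 := by
    refine lt_of_le_of_lt ?_ (Cardinal.nat_lt_aleph0 (Fintype.card V))
    apply rank_le
    intro s hs
    exact h s hs
  exact Module.rank_lt_aleph0_iff.mp hrank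

/-- `dim_K galFun K Ω V = |V|`. -/
theorem finrank_galFun [hcont : IsContAction K Ω V] :
    Module.finrank K (galFun K Ω V) = Nat.card V := by
  classical
  haveI : Fintype V := Fintype.ofFinite V
  set β := Module.finBasis K (galFun K Ω V) with hβ
  have hli : LinearIndependent Ω (fun i => ((β i : galFun K Ω V) : V → Ω)) :=
    galFun_linearIndependent β β.linearIndependent
  have hspan : ⊤ ≤ Submodule.span Ω (Set.range fun i => ((β i : galFun K Ω V) : V → Ω)) := by
    rw [← galFun_span_eq_top (K := K) (Ω := Ω) (V := V)]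
    apply Submodule.span_le.mpr
    rintro _ ⟨f, rfl⟩
    -- `f` is a `K`-combination of the basis
    have hf : f = ∑ i, β.repr f i • β i := (β.sum_repr f).symm
    have hf' : ((galFun K Ω V).val f : V → Ω) =
        ∑ i, algebraMap K Ω (β.repr f i) • ((β i : galFun K Ω V) : V → Ω) := by
      conv_lhs => rw [hf]
      rw [map_sum]
      refine Finset.sum_congr rfl fun i _ => ?_
      rw [map_smul]
      funext v
      simp [Algebra.smul_def]
    rw [hf']
    exact Submodule.sum_mem _ fun i _ => Submodule.smul_mem _ _ (Submodule.subset_span ⟨i, rfl⟩)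
  let B : Module.Basis (Fin (Module.finrank K (galFun K Ω V))) Ω (V → Ω) := Module.Basis.mk hli hspan
  have h1 := Module.finrank_eq_card_basis B
  rw [Module.finrank_pi, Fintype.card_fin] at h1
  rw [Nat.card_eq_fintype_card]
  exact h1.symm

end Fermat.Agent.FF2.R0
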